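/-
Programme T1B (row 38 via S44), cell NODE/PHI + R1, brick `AD-MAIN-Pe` (helper93), part 1:
**THE "EXTENDS TO SOME LINE" SUBGROUPS `Jexta` (algebraic) AND `JextTop` (`p`-adic).**

`(R1)` (`ρ_const`, `ρ_ker` of `Local66.Assembly.LocalGeom`) has the hypothesis
`∃ z ∈ C, j x - z ∈ J0`.  The consumers (helper80 `Hol80.R1W`, helper2 `R1Asm2.Asm`) never use `z` nor a
multidegree: they only need that, at some finite algebraic level `i`, the class `d i x` is the generic
fibre of SOME class of `Pic X_{O i}`.  So: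

* `Jexta D hE : AddSubgroup G` (over helper74's `AD74.J0a.Levels`), with
  `mem_Jexta_iff : x ∈ Jexta D hE ↔ ∃ i, ∃ y : PicX c0 (O i), PicX.map c0 (O i) (L i) y = D.d i x`,
  `J0a_le_Jexta`;
* `JextTop c0 : AddSubgroup (Atop p K c0)` (over helper66's `Local66.Union`) `:= unionSub c0 ⊤`, with
  `mem_JextTop`, `unionSub_le_JextTop` (so `J0 ≤ JextTop`), `closure_le_JextTop`
  (so `C ≤ JextTop` as soon as the generators of `C` are classes of `O_E`-sections);
* `mem_JextTop_of_exists : (∃ z ∈ C, y - z ∈ J0) → y ∈ JextTop`;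
* `ADExt j D hE : Prop := ∀ x, j x ∈ JextTop c0 → x ∈ Jexta D hE` (**AD-EXT**, = helper74's AD-MAIN
  without its last step, the `P00`-reflection) and `mem_Jexta_of_exists` (**AD-MAIN-Pe**).
-/
import Mathlib
import Fermat.Agent.T1B.AD74.J0a
import Fermat.Agent.T1B.Local66.Union

set_option autoImplicit false
set_option linter.unusedSectionVars false

universe u w

namespace Fermat.Agent.T1B.ADPe93

open Fermat.Agent.Jac Fermat.Agent.T1.RedIface75 Fermat.Agent.T1B.RedN3
open Fermat.Agent.T1B.AD74.J0a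

/-! ### The algebraic side -/

section Alg

variable {W B0 B1 B01 : Type u} [CommRing W] [CommRing B0] [CommRing B1] [CommRing B01]
  [Algebra W B0] [Algebra W B1] [Algebra W B01] [Algebra B0 B01] [Algebra B1 B01]
  [IsScalarTower W B0 B01] [IsScalarTower W B1 B01]
  {c0 : TwoChart W B0 B1 B01}
  {G : Type w} [AddCommGroup G] {ι : Type w} [Preorder ι] [IsDirected ι (· ≤ ·)] [Nonempty ι]
  {O L : ι → Type u} [∀ i, CommRing (O i)] [∀ i, IsDomain (O i)]
  [∀ i, IsDiscreteValuationRing (O i)] [∀ i, Algebra W (O i)]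
  [∀ i, CommRing (L i)] [∀ i, Algebra W (L i)] [∀ i, Algebra (O i) (L i)]
  [∀ i, IsScalarTower W (O i) (L i)]

/-- The monotonicity needed for `Jexta` (in the application: `d_tower` + functoriality of
`PicX.map`). -/
def MonoExt (D : Levels (G := G) c0 O L) : Prop :=
  ∀ i j, i ≤ j → ∀ x, D.d i x ∈ (PicX.map c0 (O i) (L i)).range →
    D.d j x ∈ (PicX.map c0 (O j) (L j)).range

/-- **`Jexta`**: the classes of `G` which at some level are the generic fibre of SOME class of the
algebraic local ring (no multidegree condition). -/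
noncomputable def Jexta (D : Levels (G := G) c0 O L) (hE : MonoExt D) : AddSubgroup G :=
  dirUnion D.d (fun i => (PicX.map c0 (O i) (L i)).range) D.d_add hE

theorem mem_Jexta_iff {D : Levels (G := G) c0 O L} {hE : MonoExt D} {x : G} :
    x ∈ Jexta D hE ↔ ∃ i, ∃ y : PicX c0 (O i), PicX.map c0 (O i) (L i) y = D.d i x := by
  unfold Jexta
  rw [mem_dirUnion]
  exact exists_congr fun i => MonoidHom.mem_range

theorem J0a_le_Jexta (D : Levels (G := G) c0 O L) (hE : MonoExt D) : J0a D ≤ Jexta D hE := by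
  intro x hx
  obtain ⟨i, y, -, hy⟩ := mem_J0a_iff.1 hx
  exact mem_Jexta_iff.2 ⟨i, y, hy⟩

/-- Finitely many elements of `Jexta` extend at a common level. -/
theorem exists_level_of_finite {D : Levels (G := G) c0 O L} {hE : MonoExt D} (s : Finset G)
    (hs : ∀ x ∈ s, x ∈ Jexta D hE) :
    ∃ i, ∀ x ∈ s, ∃ y : PicX c0 (O i), PicX.map c0 (O i) (L i) y = D.d i x := by
  classical
  induction s using Finset.induction_on with
  | empty =>
    obtain ⟨i⟩ := ‹Nonempty ι›
    exact ⟨i, fun x hx => absurd hx (Finset.notMem_empty x)⟩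
  | insert a s ha ih =>
    obtain ⟨i, hi⟩ := ih fun x hx => hs x (Finset.mem_insert_of_mem hx)
    obtain ⟨j, hj⟩ := mem_Jexta_iff.1 (hs a (Finset.mem_insert_self a s))
    obtain ⟨k, hik, hjk⟩ := exists_ge_ge i j
    refine ⟨k, fun x hx => ?_⟩
    rcases Finset.mem_insert.1 hx with rfl | hx
    · exact MonoidHom.mem_range.1 (hE j k hjk _ (MonoidHom.mem_range.2 hj))
    · exact MonoidHom.mem_range.1 (hE i k hik x (MonoidHom.mem_range.2 (hi x hx)))

end Alg

/-! ### The `p`-adic side -/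

section Top

open Fermat.Agent.T1B.Local66.Union Fermat.Agent.T1B.Local66.LocalBase
open Fermat.Agent.T1.HubInst98

variable {p : ℕ} [Fact p.Prime] {K : IntermediateField ℚ Fermat.Agent.RED.Interface4.Qbar}
  {B0 B1 B01 : Type} [CommRing B0] [CommRing B1] [CommRing B01]
  [Algebra (Wb p K) B0] [Algebra (Wb p K) B1] [Algebra (Wb p K) B01] [Algebra B0 B01]
  [Algebra B1 B01] [IsScalarTower (Wb p K) B0 B01] [IsScalarTower (Wb p K) B1 B01]
  (c0 : TwoChart (Wb p K) B0 B1 B01)

theorem compatible_top : Compatible c0 (fun _ : NLevel p K => (⊤ : Subgroup (PicO c0 _))) :=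
  fun _ _ _ _ _ => Subgroup.mem_top _

/-- **`JextTop`**: the classes of `A = Pic X_{ℚ̄_p}` which extend to a class of `Pic X_{O_E}` for
some finite level `E`. -/
noncomputable def JextTop [Nonempty (NLevel p K)] : AddSubgroup (Atop p K c0) :=
  unionSub c0 (fun _ => ⊤) (compatible_top c0)

variable {c0}

theorem mem_JextTop [Nonempty (NLevel p K)] {y : Atop p K c0} :
    y ∈ JextTop c0 ↔ ∃ (E : NLevel p K) (x : PicO c0 E), Additive.ofMul (bcO c0 E x) = y := by
  unfold JextTop
  rw [mem_unionSub]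
  exact exists_congr fun E => exists_congr fun x => by simp

theorem ofMul_bcO_mem_JextTop [Nonempty (NLevel p K)] (E : NLevel p K) (x : PicO c0 E) :
    Additive.ofMul (bcO c0 E x) ∈ JextTop c0 :=
  mem_JextTop.2 ⟨E, x, rfl⟩

/-- Every union of subgroups (e.g. `J0`, `J1`) lies in `JextTop`. -/
theorem unionSub_le_JextTop [Nonempty (NLevel p K)] (P : ∀ E : NLevel p K, Subgroup (PicO c0 E))
    (hP : Compatible c0 P) : unionSub c0 P hP ≤ JextTop c0 :=
  unionSub_mono c0 fun _ => le_top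

/-- A subgroup generated by classes which extend lies in `JextTop` (the shape for `C`). -/
theorem closure_le_JextTop [Nonempty (NLevel p K)] {S : Set (Atop p K c0)}
    (hS : ∀ g ∈ S, ∃ (E : NLevel p K) (x : PicO c0 E), Additive.ofMul (bcO c0 E x) = g) :
    AddSubgroup.closure S ≤ JextTop c0 :=
  (AddSubgroup.closure_le _).2 fun g hg => mem_JextTop.2 (hS g hg)

/-- The hypothesis of `(R1)` implies membership in `JextTop`. -/
theorem mem_JextTop_of_exists [Nonempty (NLevel p K)] {J0 C : AddSubgroup (Atop p K c0)}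
    (hJ0 : J0 ≤ JextTop c0) (hC : C ≤ JextTop c0) {y : Atop p K c0}
    (h : ∃ z ∈ C, y - z ∈ J0) : y ∈ JextTop c0 := by
  obtain ⟨z, hz, hyz⟩ := h
  have := (JextTop c0).add_mem (hJ0 hyz) (hC hz)
  rwa [sub_add_cancel] at this

end Top

/-! ### AD-EXT and AD-MAIN-Pe -/

section Bridge

open Fermat.Agent.T1B.Local66.Union Fermat.Agent.T1B.Local66.LocalBase
open Fermat.Agent.T1.HubInst98

variable {p : ℕ} [Fact p.Prime] {K : IntermediateField ℚ Fermat.Agent.RED.Interface4.Qbar}
  {B0 B1 B01 : Type} [CommRing B0] [CommRing B1] [CommRing B01]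
  [Algebra (Wb p K) B0] [Algebra (Wb p K) B1] [Algebra (Wb p K) B01] [Algebra B0 B01]
  [Algebra B1 B01] [IsScalarTower (Wb p K) B0 B01] [IsScalarTower (Wb p K) B1 B01]
  {c0 : TwoChart (Wb p K) B0 B1 B01}
  {G : Type} [AddCommGroup G] {ι : Type} [Preorder ι] [IsDirected ι (· ≤ ·)] [Nonempty ι]
  {O L : ι → Type} [∀ i, CommRing (O i)] [∀ i, IsDomain (O i)]
  [∀ i, IsDiscreteValuationRing (O i)] [∀ i, Algebra (Wb p K) (O i)]
  [∀ i, CommRing (L i)] [∀ i, Algebra (Wb p K) (L i)] [∀ i, Algebra (O i) (L i)]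
  [∀ i, IsScalarTower (Wb p K) (O i) (L i)]

/-- **AD-EXT**: a class of `G` whose `p`-adic image extends to some `O_E` extends at some algebraic
level.  (helper74's AD-MAIN without the final `P00`-reflection.) -/
def ADExt [Nonempty (NLevel p K)] (j : G →+ Atop p K c0) (D : Levels (G := G) c0 O L)
    (hE : MonoExt D) : Prop :=
  ∀ x : G, j x ∈ JextTop c0 → x ∈ Jexta D hE

/-- **AD-MAIN-Pe**: the hypothesis of `(R1)` gives an extension at some algebraic level. -/
theorem mem_Jexta_of_exists [Nonempty (NLevel p K)] {j : G →+ Atop p K c0}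
    {D : Levels (G := G) c0 O L} {hE : MonoExt D} (had : ADExt j D hE)
    {J0 C : AddSubgroup (Atop p K c0)} (hJ0 : J0 ≤ JextTop c0) (hC : C ≤ JextTop c0) (x : G)
    (h : ∃ z ∈ C, j x - z ∈ J0) : x ∈ Jexta D hE :=
  had x (mem_JextTop_of_exists hJ0 hC h)

/-- Explicit form of AD-MAIN-Pe. -/
theorem exists_extension_of_exists [Nonempty (NLevel p K)] {j : G →+ Atop p K c0}
    {D : Levels (G := G) c0 O L} {hE : MonoExt D} (had : ADExt j D hE)
    {J0 C : AddSubgroup (Atop p K c0)} (hJ0 : J0 ≤ JextTop c0) (hC : C ≤ JextTop c0) (x : G)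
    (h : ∃ z ∈ C, j x - z ∈ J0) :
    ∃ i, ∃ y : PicX c0 (O i), PicX.map c0 (O i) (L i) y = D.d i x :=
  mem_Jexta_iff.1 (mem_Jexta_of_exists had hJ0 hC x h)

end Bridge

end Fermat.Agent.T1B.ADPe93
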