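/-
Programme T1B (row 38 via S44), cell AD / NODE-PHI-R1, brick `AD-MAIN-Pe` (helper93), part 2:
**THE ABSTRACT FINAL ASSEMBLY OF `AD-MAIN`, `AD-EXT` (= `AD-MAIN-Pe`) AND THE EASY CONVERSES.**

Algebraic side: helper74's `AD74.J0a.Levels D` over a directed family of levels `(O i, L i)`
(`O i = AK A L`, `L i = L ⊂ ℚ̄` a number field).  `p`-adic side: helper66's `Local66.Union`
(`NLevel p K`, `PicO`, `PicE`, `bcO`, `bcE`, `bcOE`, `bcOO`, `unionSub`).

`Completion D j` : for every algebraic level `i` a `p`-adic level `Ehat i` (the completion of `L i`),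
the two base-change maps `toO i : Pic X_{O i} → Pic X_{Ô}`, `toE i : Pic X_{L i} → Pic X_{Ê}`, the
commuting square `sq`, the description `hj` of the bridge `j` ("`d` then base change"), helper74's
`glue` (`Pic X_{O} ↠ Pic X_L ×_{Pic X_Ê} Pic X_Ô`) and `krasner` (every `p`-adic level is below some
`Ehat i`).

With EXT-INJ-FIELD (`bcE c0 E` injective for every level `E`):

* `adExt`  : `ADExt j D hE`, i.e. `j x ∈ JextTop c0 → x ∈ Jexta D hE`              (**AD-MAIN-Pe**);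
* `adMain` : `j x ∈ unionSub c0 P hP → x ∈ J0a D`   (given the reflection `hrefl`)   (**AD-MAIN**);
* `adMain1`: the same for `J1a` (reflection of `P ⊓ J¹`);
* converses `j_mem_unionSub_of_mem_J0a`, `j_mem_unionSub_of_mem_J1a`, `j_mem_JextTop_of_mem_Jexta`.
-/
import Mathlib
import Fermat.Agent.T1B.ADPe93.Jext

set_option autoImplicit false
set_option linter.unusedSectionVars false

namespace Fermat.Agent.T1B.ADPe93

open Fermat.Agent.Jac Fermat.Agent.T1.RedIface75 Fermat.Agent.T1B.RedN3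
open Fermat.Agent.T1B.AD74.J0a
open Fermat.Agent.T1B.Local66.Union Fermat.Agent.T1B.Local66.LocalBase
open Fermat.Agent.T1.HubInst98

variable {p : ℕ} [Fact p.Prime] {K : IntermediateField ℚ Fermat.Agent.RED.Interface4.Qbar}
  {B0 B1 B01 : Type} [CommRing B0] [CommRing B1] [CommRing B01]
  [Algebra (Wb p K) B0] [Algebra (Wb p K) B1] [Algebra (Wb p K) B01] [Algebra B0 B01]
  [Algebra B1 B01] [IsScalarTower (Wb p K) B0 B01] [IsScalarTower (Wb p K) B1 B01]
  {c0 : TwoChart (Wb p K) B0 B1 B01}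
  {G : Type} [AddCommGroup G] {ι : Type} [Preorder ι] [IsDirected ι (· ≤ ·)] [Nonempty ι]
  {O L : ι → Type} [∀ i, CommRing (O i)] [∀ i, IsDomain (O i)]
  [∀ i, IsDiscreteValuationRing (O i)] [∀ i, Algebra (Wb p K) (O i)]
  [∀ i, CommRing (L i)] [∀ i, Algebra (Wb p K) (L i)] [∀ i, Algebra (O i) (L i)]
  [∀ i, IsScalarTower (Wb p K) (O i) (L i)]

/-- The completion data linking the algebraic levels to the `p`-adic ones. -/
structure Completion (D : Levels (G := G) c0 O L) (j : G →+ Atop p K c0) where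
  /-- the completion of the level `i` -/
  Ehat : ι → NLevel p K
  /-- `Pic X_{O i} → Pic X_{Ô}` -/
  toO : ∀ i, PicX c0 (O i) →* PicO c0 (Ehat i)
  /-- `Pic X_{L i} → Pic X_{Ê}` -/
  toE : ∀ i, PicX c0 (L i) →* PicE c0 (Ehat i)
  /-- the square commutes -/
  sq : ∀ i (y : PicX c0 (O i)),
    bcOE c0 (Ehat i) (toO i y) = toE i (PicX.map c0 (O i) (L i) y)
  /-- the bridge is "`d` then base change" -/
  hj : ∀ i (x : G), Additive.ofMul (bcE c0 (Ehat i) (toE i (D.d i x))) = j x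
  /-- helper74's GLUE -/
  glue : ∀ i (yh : PicO c0 (Ehat i)) (z : PicX c0 (L i)), bcOE c0 (Ehat i) yh = toE i z →
    ∃ y : PicX c0 (O i), PicX.map c0 (O i) (L i) y = z ∧ toO i y = yh
  /-- Krasner: every `p`-adic level is below the completion of an algebraic one -/
  krasner : ∀ E : NLevel p K, ∃ i, E ≤ Ehat i

namespace Completion

variable {D : Levels (G := G) c0 O L} {j : G →+ Atop p K c0} (Cm : Completion D j)
include Cm

/-- **The core**: a class of `Pic X_{O_E}` with image `j x` comes, at some algebraic level, from a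
class of `Pic X_{O i}` with generic fibre `d i x`, compatibly. -/
theorem exists_of_bcO_eq (hinjE : ∀ E : NLevel p K, Function.Injective (bcE c0 E)) (x : G)
    {E : NLevel p K} (yh : PicO c0 E) (h : Additive.ofMul (bcO c0 E yh) = j x) :
    ∃ (i : ι) (hE : E ≤ Cm.Ehat i) (y : PicX c0 (O i)),
      PicX.map c0 (O i) (L i) y = D.d i x ∧ Cm.toO i y = bcOO c0 hE yh := by
  obtain ⟨i, hE⟩ := Cm.krasner E
  have h1 : bcE c0 (Cm.Ehat i) (bcOE c0 (Cm.Ehat i) (bcOO c0 hE yh)) =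
      bcE c0 (Cm.Ehat i) (Cm.toE i (D.d i x)) := by
    rw [bcE_bcOE, bcO_bcOO]
    have h2 := (Cm.hj i x).trans h.symm
    exact (Additive.ofMul.injective h2).symm
  obtain ⟨y, hy, hy'⟩ := Cm.glue i (bcOO c0 hE yh) (D.d i x) (hinjE _ h1)
  exact ⟨i, hE, y, hy, hy'⟩

/-- **AD-EXT = AD-MAIN-Pe.** -/
theorem adExt [Nonempty (NLevel p K)] (hinjE : ∀ E : NLevel p K, Function.Injective (bcE c0 E))
    (hE : MonoExt D) : ADExt j D hE := by
  intro x hx
  obtain ⟨E, yh, h⟩ := mem_JextTop.1 hx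
  obtain ⟨i, -, y, hy, -⟩ := Cm.exists_of_bcO_eq hinjE x yh h
  exact mem_Jexta_iff.2 ⟨i, y, hy⟩

/-- **AD-MAIN**: `j x ∈ J0 → x ∈ J0a`, given the reflection of `P00` along `O i → Ô`. -/
theorem adMain [Nonempty (NLevel p K)] (hinjE : ∀ E : NLevel p K, Function.Injective (bcE c0 E))
    (P : ∀ E : NLevel p K, Subgroup (PicO c0 E)) (hP : Compatible c0 P)
    (hrefl : ∀ i (y : PicX c0 (O i)), Cm.toO i y ∈ P (Cm.Ehat i) → y ∈ D.P00 i)
    (x : G) (hx : j x ∈ unionSub c0 P hP) : x ∈ J0a D := by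
  obtain ⟨E, yh, hyh, h⟩ := (mem_unionSub c0).1 hx
  obtain ⟨i, hE, y, hy, hy'⟩ := Cm.exists_of_bcO_eq hinjE x yh h
  refine mem_J0a_iff.2 ⟨i, y, hrefl i y ?_, hy⟩
  rw [hy']
  exact hP _ _ hE yh hyh

/-- **AD-MAIN for `J1`**: `j x ∈ J1 → x ∈ J1a`, given the reflection of `P00` and of `J¹`. -/
theorem adMain1 [Nonempty (NLevel p K)] (hinjE : ∀ E : NLevel p K, Function.Injective (bcE c0 E))
    (P : ∀ E : NLevel p K, Subgroup (PicO c0 E)) (hP : Compatible c0 P)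
    (hrefl : ∀ i (y : PicX c0 (O i)), Cm.toO i y ∈ P (Cm.Ehat i) → y ∈ D.P00 i ∧ red c0 (O i) y = 1)
    (x : G) (hx : j x ∈ unionSub c0 P hP) : x ∈ J1a D := by
  obtain ⟨E, yh, hyh, h⟩ := (mem_unionSub c0).1 hx
  obtain ⟨i, hE, y, hy, hy'⟩ := Cm.exists_of_bcO_eq hinjE x yh h
  have h1 := hrefl i y (by rw [hy']; exact hP _ _ hE yh hyh)
  exact mem_J1a_iff.2 ⟨i, y, h1.1, h1.2, hy⟩

/-- The image under `j` of a class which extends at the level `i`. -/
theorem j_eq_of_map_eq (i : ι) (x : G) (y : PicX c0 (O i))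
    (hy : PicX.map c0 (O i) (L i) y = D.d i x) :
    j x = Additive.ofMul (bcO c0 (Cm.Ehat i) (Cm.toO i y)) := by
  rw [← Cm.hj i x, ← hy, ← Cm.sq i y, bcE_bcOE]

/-- Converse of AD-EXT. -/
theorem j_mem_JextTop_of_mem_Jexta [Nonempty (NLevel p K)] {hE : MonoExt D} (x : G)
    (hx : x ∈ Jexta D hE) : j x ∈ JextTop c0 := by
  obtain ⟨i, y, hy⟩ := mem_Jexta_iff.1 hx
  rw [Cm.j_eq_of_map_eq i x y hy]
  exact ofMul_bcO_mem_JextTop _ _

/-- Converse of AD-MAIN: `x ∈ J0a → j x ∈ J0`. -/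
theorem j_mem_unionSub_of_mem_J0a [Nonempty (NLevel p K)]
    (P : ∀ E : NLevel p K, Subgroup (PicO c0 E)) (hP : Compatible c0 P)
    (hmap : ∀ i (y : PicX c0 (O i)), y ∈ D.P00 i → Cm.toO i y ∈ P (Cm.Ehat i))
    (x : G) (hx : x ∈ J0a D) : j x ∈ unionSub c0 P hP := by
  obtain ⟨i, y, hyP, hy⟩ := mem_J0a_iff.1 hx
  rw [Cm.j_eq_of_map_eq i x y hy]
  exact mem_unionSub_of_mem c0 _ (hmap i y hyP)

/-- Converse of AD-MAIN for `J1`: `x ∈ J1a → j x ∈ J1`. -/
theorem j_mem_unionSub_of_mem_J1a [Nonempty (NLevel p K)]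
    (P : ∀ E : NLevel p K, Subgroup (PicO c0 E)) (hP : Compatible c0 P)
    (hmap : ∀ i (y : PicX c0 (O i)), y ∈ D.P00 i → red c0 (O i) y = 1 →
      Cm.toO i y ∈ P (Cm.Ehat i))
    (x : G) (hx : x ∈ J1a D) : j x ∈ unionSub c0 P hP := by
  obtain ⟨i, y, hyP, hy1, hy⟩ := mem_J1a_iff.1 hx
  rw [Cm.j_eq_of_map_eq i x y hy]
  exact mem_unionSub_of_mem c0 _ (hmap i y hyP hy1)

/-- **AD-MAIN-Pe, final form**: the hypothesis of `(R1)` gives an extension at an algebraic level. -/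
theorem exists_extension [Nonempty (NLevel p K)]
    (hinjE : ∀ E : NLevel p K, Function.Injective (bcE c0 E))
    {J0 C : AddSubgroup (Atop p K c0)} (hJ0 : J0 ≤ JextTop c0) (hC : C ≤ JextTop c0) (x : G)
    (h : ∃ z ∈ C, j x - z ∈ J0) :
    ∃ i, ∃ y : PicX c0 (O i), PicX.map c0 (O i) (L i) y = D.d i x := by
  have hx := mem_JextTop_of_exists hJ0 hC h
  obtain ⟨E, yh, h'⟩ := mem_JextTop.1 hx
  obtain ⟨i, -, y, hy, -⟩ := Cm.exists_of_bcO_eq hinjE x yh h'
  exact ⟨i, y, hy⟩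

end Completion

end Fermat.Agent.T1B.ADPe93
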