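/-
Programme T1B (row 38 via S44), cell AD / NODE-PHI-R1, brick `AD-MAIN-Pe` (helper93), part 3:
**THE CONCRETE `Completion`** (`ADPe93.Assembly`) on helper66's levels `Local66.Union.NLevel` (v2:
levels = finite normal number fields `L ⊇ K`, `E_L = ℚ_p(ι L)`) with helper69's concrete GLUE
`AD69.Concrete.glue_EL`.

For a level `E : NLevel p K` (`L := E.L`):

      O_L = Wb p L = A ∩ L ──→ L                 `PicOL c0 E = Pic X_{O_L}`, `PicL c0 E = Pic X_L`
        │                      │                 `toOh c0 E : Pic X_{O_L} →* PicO c0 E`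
        ↓                      ↓                 `toEh c0 E : Pic X_L     →* PicE c0 E`
      Ô = O_{E_L}      ──→ E_L                    `sq`, `glue` (helper69 + helper74 + helper78)

`completion lev hcof D j hj …` : the `Completion D j` for ANY index type `ι` with a cofinal map
`lev : ι → NLevel p K`, ANY `D : J0a.Levels c0 (fun i => Wb p (lev i).L) (fun i => ↥(lev i).L)` and ANY
`j` which is "`D.d` then base change" (`hj`).  Hence (`adExt_concrete`, `adMain_concrete`) AD-EXT
(= AD-MAIN-Pe) and AD-MAIN for them, from EXT-INJ-FIELD and the `P00`-reflection.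
-/
import Mathlib
import Fermat.Agent.T1B.ADPe93.Assembly
import Fermat.Agent.T1B.AD69.GlueFinal

set_option autoImplicit false
set_option linter.unusedSectionVars false
set_option linter.style.haveILetI false
set_option synthInstance.maxHeartbeats 400000
set_option maxHeartbeats 1000000

open Fermat.Agent.TW.B5.Iface Fermat.Agent.RED.Interface4 Fermat.Agent.T1.HubInst98
open Fermat.Agent.T1.IntSub47 Fermat.Agent.Jac Fermat.Agent.T1.RedIface75 Fermat.Agent.T1.Red11
open Fermat.Agent.T1B.Local66.LocalBase Fermat.Agent.T1B.Local66.Union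
open Fermat.Agent.T1B.AD74.J0a Fermat.Agent.T1B.AD69.Concrete

noncomputable section

namespace Fermat.Agent.T1B.ADPe93.Inst

variable {p : ℕ} [Fact p.Prime] {K : IntermediateField ℚ Qbar}
  {B0 B1 B01 : Type} [CommRing B0] [CommRing B1] [CommRing B01]
  [Algebra (Wb p K) B0] [Algebra (Wb p K) B1] [Algebra (Wb p K) B01] [Algebra B0 B01]
  [Algebra B1 B01] [IsScalarTower (Wb p K) B0 B01] [IsScalarTower (Wb p K) B1 B01]
  (c0 : TwoChart (Wb p K) B0 B1 B01)

/-! ### The algebraic Picard groups of a level and the maps to the `p`-adic ones -/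

/-- `Pic X_{O_L}`, `O_L = A ∩ L`. -/
abbrev PicOL (E : NLevel p K) : Type 1 :=
  letI := algAK (padicPlace p) E.leL
  PicX c0 (Wb p E.L)

/-- `Pic X_L`. -/
abbrev PicL (E : NLevel p K) : Type 1 :=
  letI := algAKL (padicPlace p) E.leL
  PicX c0 ↥E.L

/-- `W → O_L → Ô` is `W → Ô`. -/
theorem tower_W_OL_Oh (E : NLevel p K) :
    letI := algAK (padicPlace p) E.leL
    letI := algWO E.lev
    letI := algWO E.levL
    IsScalarTower (Wb p K) (Wb p E.L) ↥(intSubring p E.E) := by
  letI := algAK (padicPlace p) E.leL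
  letI := algWO E.lev
  letI := algWO E.levL
  exact IsScalarTower.of_algebraMap_eq fun w => (toO_inclAK E.leL E.levL w).symm

/-- `W → L → E_L` is `W → E_L`. -/
theorem tower_W_L_Eh (E : NLevel p K) :
    letI := algAKL (padicPlace p) E.leL
    letI := algWE E.lev
    letI := algKE E.levL
    IsScalarTower (Wb p K) ↥E.L ↥E.E := by
  letI := algAKL (padicPlace p) E.leL
  letI := algWE E.lev
  letI := algKE E.levL
  exact IsScalarTower.of_algebraMap_eq fun _ => Subtype.ext rfl

/-- `Pic X_{O_L} → Pic X_L`. -/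
def genL (E : NLevel p K) : PicOL c0 E →* PicL c0 E :=
  letI := algAK (padicPlace p) E.leL
  letI := algAKL (padicPlace p) E.leL
  haveI := isScalarTower_AK (padicPlace p) E.leL
  PicX.map c0 (Wb p E.L) ↥E.L

/-- `Pic X_{O_L} → Pic X_{Ô}`. -/
def toOh (E : NLevel p K) : PicOL c0 E →* PicO c0 E :=
  letI := algAK (padicPlace p) E.leL
  letI := algWO E.lev
  letI := algWO E.levL
  haveI := tower_W_OL_Oh E
  PicX.map c0 (Wb p E.L) ↥(intSubring p E.E)

/-- `Pic X_L → Pic X_{E_L}`. -/
def toEh (E : NLevel p K) : PicL c0 E →* PicE c0 E :=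
  letI := algAKL (padicPlace p) E.leL
  letI := algWE E.lev
  letI := algKE E.levL
  haveI := tower_W_L_Eh E
  PicX.map c0 ↥E.L ↥E.E

/-- The square `O_L → L → E_L`, `O_L → Ô → E_L` commutes on Picard groups. -/
theorem sq (E : NLevel p K) (y : PicOL c0 E) :
    bcOE c0 E (toOh c0 E y) = toEh c0 E (genL c0 E y) := by
  letI := algAK (padicPlace p) E.leL
  letI := algAKL (padicPlace p) E.leL
  letI := algWO E.lev
  letI := algWE E.lev
  letI := algWO E.levL
  letI := algWE E.levL
  letI := algOE E.E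
  letI := algKE E.levL
  haveI := isScalarTower_AK (padicPlace p) E.leL
  haveI := tower_W_OL_Oh E
  haveI := tower_W_L_Eh E
  haveI := tower_W_O_E E.lev
  haveI : IsScalarTower (Wb p K) (Wb p E.L) ↥E.E :=
    IsScalarTower.of_algebraMap_eq fun _ => Subtype.ext rfl
  haveI : IsScalarTower (Wb p E.L) ↥E.L ↥E.E := IsScalarTower.of_algebraMap_eq' rfl
  haveI := tower_W_O_E E.levL
  have h1 : bcOE c0 E (toOh c0 E y) = PicX.map c0 (Wb p E.L) ↥E.E y :=
    PicX.map_comp c0 (Wb p E.L) ↥(intSubring p E.E) ↥E.E y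
  have h2 : toEh c0 E (genL c0 E y) = PicX.map c0 (Wb p E.L) ↥E.E y :=
    PicX.map_comp c0 (Wb p E.L) ↥E.L ↥E.E y
  rw [h1, h2]

/-! ### GLUE at a level -/

section Glue

variable [Module.Flat (Wb p K) B0] [Module.Flat (Wb p K) B1] [Module.Flat (Wb p K) B01]
  (e0 : B0 →+* LaurentSeries ↥K)
  (he0 : ∀ w : Wb p K, e0 (algebraMap (Wb p K) B0 w) = HahnSeries.C (algebraMap (Wb p K) ↥K w))
  (e1 : B1 →+* LaurentSeries ↥K)
  (he1 : ∀ w : Wb p K, e1 (algebraMap (Wb p K) B1 w) = HahnSeries.C (algebraMap (Wb p K) ↥K w))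
  (e01 : B01 →+* LaurentSeries ↥K)
  (he01 : ∀ w : Wb p K, e01 (algebraMap (Wb p K) B01 w) = HahnSeries.C (algebraMap (Wb p K) ↥K w))
  (h0 : ∀ b : B0, e01 (algebraMap B0 B01 b) = e0 b)
  (h1 : ∀ b : B1, e01 (algebraMap B1 B01 b) = e1 b)

/-- `p` as an element of `O_L`. -/
def pOL (L : IntermediateField ℚ Qbar) : Wb p L := (p : Wb p L)

include e0 he0 e1 he1 e01 he01 h0 h1 in
/-- **GLUE at the level `E`** (helper69's `glue_EL` with `π = p`, in `Union` vocabulary). -/
theorem glue (hinj0 : Function.Injective e0) (hinj1 : Function.Injective e1)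
    (hinj01 : Function.Injective e01) (E : NLevel p K) (yh : PicO c0 E) (z : PicL c0 E)
    (h : bcOE c0 E yh = toEh c0 E z) :
    ∃ y : PicOL c0 E, genL c0 E y = z ∧ toOh c0 E y = yh := by
  -- `E.E` is `localField p E.L` (a propositional equality in `Union` v2.1): substitute it
  obtain ⟨L, finL, norL, leL, E', rfl⟩ := E
  have hp : (p : ℕ).Prime := Fact.out
  have hπ0 : (p : Wb p L) ≠ 0 := by
    intro h0'
    have h1' : iotaW p L (p : Wb p L) = 0 := by rw [h0', map_zero]
    rw [map_natCast] at h1'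
    exact (norm_p_pos p).ne' (by rw [h1', norm_zero])
  have hπ : ‖iotaW p L (p : Wb p L)‖ < 1 := by
    rw [map_natCast]
    exact norm_p_lt_one p
  exact glue_EL c0 e0 he0 e1 he1 e01 he01 h0 h1 leL hinj0 hinj1 hinj01 (p : Wb p L) hπ0 hπ yh z h

end Glue

/-! ### The instance families over an index type `ι` with `lev : ι → NLevel p K` -/

section Families

variable {ι : Type} (lev : ι → NLevel p K)

/-- `O i = A ∩ L_i`. -/
abbrev OFam : ι → Type := fun i => Wb p (lev i).L

/-- `L i = L_i`. -/
abbrev LFam : ι → Type := fun i => ↥(lev i).L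

/-- `A ∩ L` is a DVR. -/
theorem isDVR_OL (E : NLevel p K) : IsDiscreteValuationRing (Wb p E.L) :=
  isDVR_AK (padicPlace p) (Fact.out : p.Prime).ne_zero
    (Fermat.Agent.T1.LocModel46.liesOverPrime p) E.L

/-- the family of DVR structures (use with `letI`/`haveI`) -/
abbrev dvrFam : ∀ i, IsDiscreteValuationRing (OFam lev i) := fun i => isDVR_OL (lev i)

/-- the family of `W`-algebra structures on the `O i` (use with `letI`) -/
abbrev algWOFam : ∀ i, Algebra (Wb p K) (OFam lev i) := fun i => algAK (padicPlace p) (lev i).leL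

/-- the family of `W`-algebra structures on the `L i` (use with `letI`) -/
abbrev algWLFam : ∀ i, Algebra (Wb p K) (LFam lev i) := fun i => algAKL (padicPlace p) (lev i).leL

/-- the family of towers `W → O i → L i` -/
theorem towerFam :
    letI := algWOFam lev
    letI := algWLFam lev
    ∀ i, IsScalarTower (Wb p K) (OFam lev i) (LFam lev i) := by
  letI := algWOFam lev
  letI := algWLFam lev
  exact fun i => isScalarTower_AK (padicPlace p) (lev i).leL

end Families

/-! ### The concrete `Completion` -/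

section Completion

variable [Module.Flat (Wb p K) B0] [Module.Flat (Wb p K) B1] [Module.Flat (Wb p K) B01]
  (e0 : B0 →+* LaurentSeries ↥K)
  (he0 : ∀ w : Wb p K, e0 (algebraMap (Wb p K) B0 w) = HahnSeries.C (algebraMap (Wb p K) ↥K w))
  (e1 : B1 →+* LaurentSeries ↥K)
  (he1 : ∀ w : Wb p K, e1 (algebraMap (Wb p K) B1 w) = HahnSeries.C (algebraMap (Wb p K) ↥K w))
  (e01 : B01 →+* LaurentSeries ↥K)
  (he01 : ∀ w : Wb p K, e01 (algebraMap (Wb p K) B01 w) = HahnSeries.C (algebraMap (Wb p K) ↥K w))
  (h0 : ∀ b : B0, e01 (algebraMap B0 B01 b) = e0 b)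
  (h1 : ∀ b : B1, e01 (algebraMap B1 B01 b) = e1 b)
  {G : Type} [AddCommGroup G] {ι : Type} [Preorder ι] [IsDirected ι (· ≤ ·)] [Nonempty ι]
  (lev : ι → NLevel p K)

/-- **The concrete `Completion`**: for a cofinal family of levels `lev`, any `Levels` datum `D` over
`(A ∩ L_i, L_i)` and any bridge `j` which is "`D.d` then base change". -/
def completion (hinj0 : Function.Injective e0) (hinj1 : Function.Injective e1)
    (hinj01 : Function.Injective e01)
    (hcof : ∀ E : NLevel p K, ∃ i, E ≤ lev i) :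
    letI := dvrFam lev
    letI := algWOFam lev
    letI := algWLFam lev
    haveI := towerFam lev
    ∀ (D : Levels (G := G) c0 (OFam lev) (LFam lev)) (j : G →+ Atop p K c0)
      (_ : ∀ i x, Additive.ofMul (bcE c0 (lev i) (toEh c0 (lev i) (D.d i x))) = j x),
      Completion D j := by
  letI := dvrFam lev
  letI := algWOFam lev
  letI := algWLFam lev
  haveI := towerFam lev
  intro D j hj
  exact
    { Ehat := lev
      toO := fun i => toOh c0 (lev i)
      toE := fun i => toEh c0 (lev i)
      sq := fun i y => sq c0 (lev i) y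
      hj := hj
      glue := fun i yh z h =>
        glue c0 e0 he0 e1 he1 e01 he01 h0 h1 hinj0 hinj1 hinj01 (lev i) yh z h
      krasner := hcof }

end Completion

end Fermat.Agent.T1B.ADPe93.Inst
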