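/-
Programme T1B (row 38 via S44), cell AD, brick `AD-MAIN-Pe` (helper93), part 4:
**THE INDEX TYPE OF THE ALGEBRAIC LEVELS**: the levels `E : NLevel p K` (helper66's `Local66.Union`,
v2.1) whose number field contains a prescribed number field `L₀` (in the application: the field of
definition of a section of the `p`-torsion, `Bridge39.TorsSec.L₀`).

`LevelAbove p K L₀ := {E : NLevel p K // L₀ ≤ E.L}` is a directed nonempty preorder
(`E ≤ E' ↔ E.1.L ≤ E'.1.L`), and `lev = Subtype.val : LevelAbove p K L₀ → NLevel p K` is monotone and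
COFINAL (`exists_le_lev`) — the hypothesis `hcof` of `ADPe93.Inst.completion`.
-/
import Mathlib
import Fermat.Agent.T1B.Local66.Union

set_option autoImplicit false
set_option linter.unusedSectionVars false

open Fermat.Agent.TW.B5.Iface Fermat.Agent.RED.Interface4
open Fermat.Agent.T1B.Local66.LocalBase Fermat.Agent.T1B.Local66.Union

namespace Fermat.Agent.T1B.ADPe93

variable (p : ℕ) [Fact p.Prime] (K L₀ : IntermediateField ℚ Qbar)

/-- The levels whose number field contains `L₀`. -/
def LevelAbove : Type := {E : NLevel p K // L₀ ≤ E.L}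

variable {p K L₀}

namespace LevelAbove

/-- The underlying level. -/
def lev (i : LevelAbove p K L₀) : NLevel p K := i.1

theorem le_L (i : LevelAbove p K L₀) : L₀ ≤ (lev i).L := i.2

instance : Preorder (LevelAbove p K L₀) where
  le i j := lev i ≤ lev j
  le_refl i := NLevel.le_refl (lev i)
  le_trans _ _ _ h h' := NLevel.le_trans h h'

theorem le_iff {i j : LevelAbove p K L₀} : i ≤ j ↔ lev i ≤ lev j := Iff.rfl

theorem le_iff_L {i j : LevelAbove p K L₀} : i ≤ j ↔ (lev i).L ≤ (lev j).L := Iff.rfl

theorem lev_mono {i j : LevelAbove p K L₀} (h : i ≤ j) : lev i ≤ lev j := h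

/-- The supremum of two levels above `L₀`. -/
noncomputable def sup (i j : LevelAbove p K L₀) : LevelAbove p K L₀ :=
  ⟨(lev i).sup (lev j), (le_L i).trans (NLevel.le_def.1 ((lev i).le_sup_left (lev j)))⟩

instance : IsDirected (LevelAbove p K L₀) (· ≤ ·) :=
  ⟨fun i j => ⟨sup i j, (lev i).le_sup_left (lev j), (lev i).le_sup_right (lev j)⟩⟩

/-- **Cofinality**: every level is below a level above `L₀`. -/
theorem exists_le_lev [FiniteDimensional ℚ L₀] (E : NLevel p K) :
    ∃ i : LevelAbove p K L₀, E ≤ lev i := by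
  obtain ⟨E', hE, hL⟩ := E.exists_ge_field L₀
  exact ⟨⟨E', hL⟩, hE⟩

instance [FiniteDimensional ℚ K] [FiniteDimensional ℚ L₀] : Nonempty (LevelAbove p K L₀) := by
  obtain ⟨E⟩ := NLevel.nonempty p K
  obtain ⟨i, -⟩ := exists_le_lev (L₀ := L₀) E
  exact ⟨i⟩

/-- The level of a finite normal number field containing `K` and `L₀`. -/
noncomputable def ofField (L : IntermediateField ℚ Qbar) [FiniteDimensional ℚ L] [Normal ℚ L] (hK : K ≤ L)
    (hL : L₀ ≤ L) : LevelAbove p K L₀ :=
  ⟨NLevel.ofField L hK, hL⟩

end LevelAbove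

end Fermat.Agent.T1B.ADPe93
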