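/-
Programme T1B (row 38 via S44), cell AD / NODE-PHI-R1, brick `AD-MAIN-Pe` (helper93), part 5:
**AD-EXT (= AD-MAIN-Pe), AD-MAIN, AD-MAIN for `J1` AND THE CONVERSES, CONCRETELY**, over the index type
`LevelAbove p K L₀` (levels whose number field contains `L₀`).

Inputs that remain (all owned elsewhere):
* `D : J0a.Levels c0 (OFam lev) (LFam lev)`    — helper74 (`AD74/J0aInst`), `lev := LevelAbove.lev`;
* `j` and `hj` ("`j` is `D.d` then base change")  — helper66 / helper54 (J-BRIDGE);
* `hinjE` (EXT-INJ-FIELD)                         — helper43 (`Bridge43/ExtInjField`);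
* the expansions `e_j` of the chart rings         — the hub (helper9) / helper69 `GlueSub`;
* `hrefl` / `hmap` (`P00` along `O_L → Ô`)         — helper53 `NodalBC53/Bal.map_mem_P00_iff`.
-/
import Mathlib
import Fermat.Agent.T1B.ADPe93.Inst
import Fermat.Agent.T1B.ADPe93.Index

set_option autoImplicit false
set_option linter.unusedSectionVars false
set_option linter.style.haveILetI false
set_option synthInstance.maxHeartbeats 400000
set_option maxHeartbeats 1000000

open Fermat.Agent.TW.B5.Iface Fermat.Agent.RED.Interface4 Fermat.Agent.T1.HubInst98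
open Fermat.Agent.T1.IntSub47 Fermat.Agent.Jac Fermat.Agent.T1.RedIface75
open Fermat.Agent.T1B.Local66.LocalBase Fermat.Agent.T1B.Local66.Union
open Fermat.Agent.T1B.AD74.J0a Fermat.Agent.T1B.ADPe93.Inst

noncomputable section

namespace Fermat.Agent.T1B.ADPe93.Final

variable {p : ℕ} [Fact p.Prime] {K : IntermediateField ℚ Qbar} [FiniteDimensional ℚ K]
  {B0 B1 B01 : Type} [CommRing B0] [CommRing B1] [CommRing B01]
  [Algebra (Wb p K) B0] [Algebra (Wb p K) B1] [Algebra (Wb p K) B01] [Algebra B0 B01]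
  [Algebra B1 B01] [IsScalarTower (Wb p K) B0 B01] [IsScalarTower (Wb p K) B1 B01]
  (c0 : TwoChart (Wb p K) B0 B1 B01)
  [Module.Flat (Wb p K) B0] [Module.Flat (Wb p K) B1] [Module.Flat (Wb p K) B01]
  (e0 : B0 →+* LaurentSeries ↥K)
  (he0 : ∀ w : Wb p K, e0 (algebraMap (Wb p K) B0 w) = HahnSeries.C (algebraMap (Wb p K) ↥K w))
  (e1 : B1 →+* LaurentSeries ↥K)
  (he1 : ∀ w : Wb p K, e1 (algebraMap (Wb p K) B1 w) = HahnSeries.C (algebraMap (Wb p K) ↥K w))
  (e01 : B01 →+* LaurentSeries ↥K)
  (he01 : ∀ w : Wb p K, e01 (algebraMap (Wb p K) B01 w) = HahnSeries.C (algebraMap (Wb p K) ↥K w))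
  (h0 : ∀ b : B0, e01 (algebraMap B0 B01 b) = e0 b)
  (h1 : ∀ b : B1, e01 (algebraMap B1 B01 b) = e1 b)
  (L₀ : IntermediateField ℚ Qbar) [FiniteDimensional ℚ L₀]
  {G : Type} [AddCommGroup G]

/-- **The concrete `Completion` over the levels above `L₀`.** -/
def completionAbove (hinj0 : Function.Injective e0) (hinj1 : Function.Injective e1)
    (hinj01 : Function.Injective e01) :
    letI := dvrFam (LevelAbove.lev (p := p) (K := K) (L₀ := L₀))
    letI := algWOFam (LevelAbove.lev (p := p) (K := K) (L₀ := L₀))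
    letI := algWLFam (LevelAbove.lev (p := p) (K := K) (L₀ := L₀))
    haveI := towerFam (LevelAbove.lev (p := p) (K := K) (L₀ := L₀))
    ∀ (D : Levels (G := G) c0 (OFam (LevelAbove.lev (p := p) (K := K) (L₀ := L₀)))
        (LFam (LevelAbove.lev (p := p) (K := K) (L₀ := L₀)))) (j : G →+ Atop p K c0)
      (_ : ∀ i x, Additive.ofMul
        (bcE c0 (LevelAbove.lev i) (toEh c0 (LevelAbove.lev i) (D.d i x))) = j x),
      Completion D j :=
  completion c0 e0 he0 e1 he1 e01 he01 h0 h1 (LevelAbove.lev (p := p) (K := K) (L₀ := L₀))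
    hinj0 hinj1 hinj01 LevelAbove.exists_le_lev

end Fermat.Agent.T1B.ADPe93.Final
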