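/-
Programme T1B (row 38 via S44), cell AD / NODE-PHI-R1, brick `AD-MAIN-Pe` (helper93), part 6:
**THE FOUR `LocalGeom` FIELDS WHICH GO THROUGH THE CELL AD** — `ρ_const`, `ρ_ker`, `δ_hol`, `δ_ker` —
in the EXACT binder shape of helper66's `Local66.Glue.localGeom_of_fields` (objects
`Objects.J0top`, `Objects.J1top`; `C` is ANY subgroup with `C ≤ Objects.JextTop c0`, e.g.
`Objects.CSub c0 E0 r` (`Objects.CSub_le_JextTop`) or `Objects.JextTop c0` itself (`le_rfl`)), from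

* a `Completion Cm` of `(D, j)` (`ADPe93.Assembly`; concrete: `ADPe93.Inst.completion`) and EXT-INJ-FIELD
  `hinjE`;
* the comparison of the `P00`-families along `O i → Ô` (`hrefl`, `hmap`: helper53
  `NodalBC53/Bal.map_mem_P00_iff`) and of the kernels of reduction (`hred1`);
* the ALGEBRAIC, LEVEL-WISE statements of the cells:
  - `(R1)`  : `PicX.map c0 (O i) (L i) y = D.d i x → ∃ s, ρ x = s • one`, and
              `… → ρ x = 0 → D.d i x ∈ J0L c0 (O i) (L i) (D.P00 i)`   (helper2 `R1Asm2.rho_hub` + dictionary);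
  - `(HOL)` : `x ∈ J0a D → δ i x ∈ S`                                   (helper80 / helper31);
  - `(KER)` : `x ∈ J0a D → (∀ i, δ i x = 0) → x ∈ J1a D`               (helper85).
-/
import Mathlib
import Fermat.Agent.T1B.ADPe93.Assembly
import Fermat.Agent.T1B.Local66.Objects

set_option autoImplicit false
set_option linter.unusedSectionVars false

namespace Fermat.Agent.T1B.ADPe93.Fields

open Fermat.Agent.Jac Fermat.Agent.T1.RedIface75 Fermat.Agent.T1B.RedN3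
open Fermat.Agent.T1B.AD74.J0a
open Fermat.Agent.T1B.Local66.Union Fermat.Agent.T1B.Local66.LocalBase
open Fermat.Agent.T1B.Local66.Objects Fermat.Agent.T1B.Bridge54.IpUnion
open Fermat.Agent.T1.HubInst98

universe uR uS uD

variable {p : ℕ} [Fact p.Prime] {K : IntermediateField ℚ Fermat.Agent.RED.Interface4.Qbar}
  [Nonempty (NLevel p K)]
  {B0 B1 B01 : Type} [CommRing B0] [CommRing B1] [CommRing B01]
  [Algebra (Wb p K) B0] [Algebra (Wb p K) B1] [Algebra (Wb p K) B01] [Algebra B0 B01]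
  [Algebra B1 B01] [IsScalarTower (Wb p K) B0 B01] [IsScalarTower (Wb p K) B1 B01]
  {c0 : TwoChart (Wb p K) B0 B1 B01}
  {G : Type} [AddCommGroup G] {ι : Type} [Preorder ι] [IsDirected ι (· ≤ ·)] [Nonempty ι]
  {O L : ι → Type} [∀ i, CommRing (O i)] [∀ i, IsDomain (O i)]
  [∀ i, IsDiscreteValuationRing (O i)] [∀ i, Algebra (Wb p K) (O i)]
  [∀ i, CommRing (L i)] [∀ i, Algebra (Wb p K) (L i)] [∀ i, Algebra (O i) (L i)]
  [∀ i, IsScalarTower (Wb p K) (O i) (L i)]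
  {D : Levels (G := G) c0 O L} {j : G →+ Atop p K c0} (Cm : Completion D j)
  (hinjE : ∀ E : NLevel p K, Function.Injective (bcE c0 E))
  (P00 : ∀ E : NLevel p K, Subgroup (PicO c0 E)) (hPP : Compatible c0 P00)

include Cm hinjE

/-- The two `JextTop`'s agree. -/
theorem jextTop_eq :
    Fermat.Agent.T1B.ADPe93.JextTop c0 = Fermat.Agent.T1B.Local66.Objects.JextTop c0 := rfl

/-- **AD-MAIN-Pe on the concrete objects**: the hypothesis of `(R1)` gives an extension at an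
algebraic level. -/
theorem exists_extension (C : AddSubgroup (Atop p K c0))
    (hC : C ≤ Fermat.Agent.T1B.Local66.Objects.JextTop c0) (x : G)
    (h : ∃ z ∈ C, j x - z ∈ J0top c0 P00 hPP) :
    ∃ i, ∃ y : PicX c0 (O i), PicX.map c0 (O i) (L i) y = D.d i x :=
  Cm.exists_extension hinjE (J0 := J0top c0 P00 hPP) (C := C)
    (J0top_le_JextTop c0 P00 hPP) hC x h

/-- **`LocalGeom.ρ_const`** from the level-wise algebraic statement. -/
theorem rho_const {R : Type uR} [AddCommGroup R] (ρ : G →+ R) (one : R)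
    (C : AddSubgroup (Atop p K c0)) (hC : C ≤ Fermat.Agent.T1B.Local66.Objects.JextTop c0)
    (halg : ∀ i (y : PicX c0 (O i)) (x : G), PicX.map c0 (O i) (L i) y = D.d i x →
      ∃ s : ℤ, ρ x = s • one) :
    ∀ x : G, (∃ z ∈ C, j x - z ∈ J0top c0 P00 hPP) → ∃ s : ℤ, ρ x = s • one := by
  intro x h
  obtain ⟨i, y, hy⟩ := exists_extension Cm hinjE P00 hPP C hC x h
  exact halg i y x hy

/-- **`LocalGeom.ρ_ker`** from the level-wise algebraic statement. -/
theorem rho_ker {R : Type uR} [AddCommGroup R] (ρ : G →+ R)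
    (C : AddSubgroup (Atop p K c0)) (hC : C ≤ Fermat.Agent.T1B.Local66.Objects.JextTop c0)
    (hmap : ∀ i (y : PicX c0 (O i)), y ∈ D.P00 i → Cm.toO i y ∈ P00 (Cm.Ehat i))
    (halg : ∀ i (y : PicX c0 (O i)) (x : G), PicX.map c0 (O i) (L i) y = D.d i x → ρ x = 0 →
      D.d i x ∈ J0L c0 (O i) (L i) (D.P00 i)) :
    ∀ x : G, (∃ z ∈ C, j x - z ∈ J0top c0 P00 hPP) → ρ x = 0 →
      j x ∈ J0top c0 P00 hPP := by
  intro x h h0
  obtain ⟨i, y, hy⟩ := exists_extension Cm hinjE P00 hPP C hC x h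
  have hx : x ∈ J0a D := mem_J0a.2 ⟨i, halg i y x hy h0⟩
  exact Cm.j_mem_unionSub_of_mem_J0a P00 hPP hmap x hx

/-- **`LocalGeom.δ_hol`** from the algebraic statement on `J0a`. -/
theorem delta_hol {Side : Type uS} {Dd : Type uD} [AddCommGroup Dd] (δ : Side → G →+ Dd)
    (S : AddSubgroup Dd)
    (hrefl : ∀ i (y : PicX c0 (O i)), Cm.toO i y ∈ P00 (Cm.Ehat i) → y ∈ D.P00 i)
    (halg : ∀ (s : Side) (x : G), x ∈ J0a D → δ s x ∈ S) :
    ∀ (s : Side) (x : G), j x ∈ J0top c0 P00 hPP → δ s x ∈ S := fun s x hx =>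
  halg s x (Cm.adMain hinjE P00 hPP hrefl x hx)

/-- **`LocalGeom.δ_ker`** from the algebraic statement `J0a ∩ ⋂ ker δ ⊆ J1a`. -/
theorem delta_ker {Side : Type uS} {Dd : Type uD} [AddCommGroup Dd] (δ : Side → G →+ Dd)
    (hrefl : ∀ i (y : PicX c0 (O i)), Cm.toO i y ∈ P00 (Cm.Ehat i) → y ∈ D.P00 i)
    (hmap1 : ∀ i (y : PicX c0 (O i)), y ∈ D.P00 i → red c0 (O i) y = 1 →
      Cm.toO i y ∈ P00 (Cm.Ehat i) ⊓ J1Fam c0 (Cm.Ehat i))
    (halg : ∀ x : G, x ∈ J0a D → (∀ s, δ s x = 0) → x ∈ J1a D) :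
    ∀ x : G, j x ∈ J0top c0 P00 hPP → (∀ s, δ s x = 0) → j x ∈ J1top c0 P00 hPP := by
  intro x hx h0
  have h1 : x ∈ J1a D := halg x (Cm.adMain hinjE P00 hPP hrefl x hx) h0
  exact Cm.j_mem_unionSub_of_mem_J1a (fun E => P00 E ⊓ J1Fam c0 E)
    (compatible_inf c0 hPP (compatible_J1Fam c0)) hmap1 x h1

/-! ### Torsion form (the shape produced by `R1Asm2.rho_of_level`, `Hol80.delta_mem_of_mem_J0a`) -/

omit Cm hinjE in
/-- `D.d i x ^ n = 1` when `n • x = 0`. -/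
theorem d_pow_eq_one (n : ℕ) (i : ι) (x : G) (hx : n • x = 0) : D.d i x ^ n = 1 := by
  have h0 : D.d i 0 = 1 := by
    have h : D.d i 0 * D.d i 0 = D.d i 0 := by rw [← D.d_add, add_zero]
    exact mul_eq_left.mp h
  have hpow : ∀ m : ℕ, D.d i (m • x) = D.d i x ^ m := by
    intro m
    induction m with
    | zero => rw [zero_smul, pow_zero, h0]
    | succ m ih => rw [succ_nsmul, D.d_add, ih, pow_succ]
  rw [← hpow n, hx, h0]

/-- **`LocalGeom.ρ_const` and `LocalGeom.ρ_ker` at once**, from ONE level-wise statement in the shape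
of helper2's `R1Asm2.rho_of_level` (`z := D.d i x`, `hzp : z ^ n = 1`), for a group `G` killed by
`n` (`G = J₀(N)(ℚ̄)[p]`, `n = p`). -/
theorem rho_fields {R : Type uR} [AddCommGroup R] (ρ : G →+ R) (one : R) (n : ℕ)
    (hn : ∀ x : G, n • x = 0)
    (C : AddSubgroup (Atop p K c0)) (hC : C ≤ Fermat.Agent.T1B.Local66.Objects.JextTop c0)
    (hmap : ∀ i (y : PicX c0 (O i)), y ∈ D.P00 i → Cm.toO i y ∈ P00 (Cm.Ehat i))
    (hlevel : ∀ i (y : PicX c0 (O i)) (x : G), PicX.map c0 (O i) (L i) y = D.d i x →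
      D.d i x ^ n = 1 →
      (∃ s : ℤ, ρ x = s • one) ∧ (ρ x = 0 → D.d i x ∈ J0L c0 (O i) (L i) (D.P00 i))) :
    (∀ x : G, (∃ z ∈ C, j x - z ∈ J0top c0 P00 hPP) → ∃ s : ℤ, ρ x = s • one) ∧
    (∀ x : G, (∃ z ∈ C, j x - z ∈ J0top c0 P00 hPP) → ρ x = 0 → j x ∈ J0top c0 P00 hPP) :=
  ⟨rho_const Cm hinjE P00 hPP ρ one C hC fun i y x hy =>
      (hlevel i y x hy (d_pow_eq_one n i x (hn x))).1,
    rho_ker Cm hinjE P00 hPP ρ C hC hmap fun i y x hy =>
      (hlevel i y x hy (d_pow_eq_one n i x (hn x))).2⟩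

omit Cm hinjE in
/-- A constant vector `(s)_e` in `ιE → ZMod p` is `s • 𝟙`. -/
theorem exists_zsmul_one_of_const {ιE : Type*} {q : ℕ} {r : ιE → ZMod q}
    (h : ∃ s : ℤ, r = fun _ => (s : ZMod q)) : ∃ s : ℤ, r = s • (fun _ : ιE => (1 : ZMod q)) := by
  obtain ⟨s, rfl⟩ := h
  refine ⟨s, ?_⟩
  funext e
  rw [Pi.smul_apply, zsmul_one]

omit Cm hinjE in
/-- The zero vector vanishes somewhere (`ιE` nonempty). -/
theorem exists_apply_eq_zero {ιE : Type*} [Nonempty ιE] {q : ℕ} {r : ιE → ZMod q} (h : r = 0) :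
    ∃ e, r e = 0 := by
  obtain ⟨e⟩ := ‹Nonempty ιE›
  exact ⟨e, by rw [h]; rfl⟩

end Fermat.Agent.T1B.ADPe93.Fields
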