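/-
Programme T1B (row 38 via S44), cell AD / NODE-PHI-R1, brick `AD-MAIN-Pe` (helper93), part 9:
**`ρ_const`, `ρ_ker` IN THE BINDER SHAPE OF `Local66.Glue.localGeom_of_fields` v2**
(`C := Objects.JextTop c0`; hypothesis `j x ∈ JextTop c0` instead of `∃ z ∈ C, j x - z ∈ J0`).

* `exists_of_mem_JextTop` : `y ∈ JextTop c0 → ∃ z ∈ JextTop c0, y - z ∈ J0` (`z := y`);
* `exists_extension_ext` : `j x ∈ JextTop c0 → ∃ i y, PicX.map c0 (O i) (L i) y = D.d i x`;
* `rho_const_ext`, `rho_ker_ext`, `rho_fields_ext` : the v2 forms of `Fields.rho_const`, `rho_ker`,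
  `rho_fields`;
* `of_exists_form` : converts ANY pair of statements in the `∃ z ∈ C` form (e.g. helper2's
  `R1Asm2.rho_fields_of_levels … (C := JextTop c0) (hC := le_rfl)`) into the v2 form.
-/
import Mathlib
import Fermat.Agent.T1B.ADPe93.Fields

set_option autoImplicit false
set_option linter.unusedSectionVars false

namespace Fermat.Agent.T1B.ADPe93.FieldsExt

open Fermat.Agent.Jac Fermat.Agent.T1.RedIface75 Fermat.Agent.T1B.RedN3
open Fermat.Agent.T1B.AD74.J0a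
open Fermat.Agent.T1B.Local66.Union Fermat.Agent.T1B.Local66.LocalBase
open Fermat.Agent.T1B.Local66.Objects Fermat.Agent.T1B.Bridge54.IpUnion
open Fermat.Agent.T1.HubInst98

universe uR

variable {p : ℕ} [Fact p.Prime] {K : IntermediateField ℚ Fermat.Agent.RED.Interface4.Qbar}
  [Nonempty (NLevel p K)]
  {B0 B1 B01 : Type} [CommRing B0] [CommRing B1] [CommRing B01]
  [Algebra (Wb p K) B0] [Algebra (Wb p K) B1] [Algebra (Wb p K) B01] [Algebra B0 B01]
  [Algebra B1 B01] [IsScalarTower (Wb p K) B0 B01] [IsScalarTower (Wb p K) B1 B01]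
  {c0 : TwoChart (Wb p K) B0 B1 B01}

/-- `y ∈ C → ∃ z ∈ C, y - z ∈ J0` (take `z := y`). -/
theorem exists_of_mem {C J0 : AddSubgroup (Atop p K c0)} {y : Atop p K c0} (hy : y ∈ C) :
    ∃ z ∈ C, y - z ∈ J0 :=
  ⟨y, hy, by rw [sub_self]; exact J0.zero_mem⟩

/-- **Adapter**: statements in the `∃ z ∈ JextTop c0, j x - z ∈ J0` form give the v2 form
`j x ∈ JextTop c0`. -/
theorem of_exists_form {G : Type} [AddCommGroup G] {j : G →+ Atop p K c0}
    {J0 : AddSubgroup (Atop p K c0)} {P Q : G → Prop}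
    (h : (∀ x : G, (∃ z ∈ Fermat.Agent.T1B.Local66.Objects.JextTop c0, j x - z ∈ J0) → P x) ∧
      (∀ x : G, (∃ z ∈ Fermat.Agent.T1B.Local66.Objects.JextTop c0, j x - z ∈ J0) → Q x)) :
    (∀ x : G, j x ∈ Fermat.Agent.T1B.Local66.Objects.JextTop c0 → P x) ∧
      (∀ x : G, j x ∈ Fermat.Agent.T1B.Local66.Objects.JextTop c0 → Q x) :=
  ⟨fun x hx => h.1 x (exists_of_mem hx), fun x hx => h.2 x (exists_of_mem hx)⟩

variable {G : Type} [AddCommGroup G] {ι : Type} [Preorder ι] [IsDirected ι (· ≤ ·)] [Nonempty ι]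
  {O L : ι → Type} [∀ i, CommRing (O i)] [∀ i, IsDomain (O i)]
  [∀ i, IsDiscreteValuationRing (O i)] [∀ i, Algebra (Wb p K) (O i)]
  [∀ i, CommRing (L i)] [∀ i, Algebra (Wb p K) (L i)] [∀ i, Algebra (O i) (L i)]
  [∀ i, IsScalarTower (Wb p K) (O i) (L i)]
  {D : Levels (G := G) c0 O L} {j : G →+ Atop p K c0} (Cm : Completion D j)
  (hinjE : ∀ E : NLevel p K, Function.Injective (bcE c0 E))
  (P00 : ∀ E : NLevel p K, Subgroup (PicO c0 E)) (hPP : Compatible c0 P00)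

include Cm hinjE

/-- **AD-MAIN-Pe, v2 form**: `j x ∈ JextTop c0` gives an extension at an algebraic level. -/
theorem exists_extension_ext (x : G)
    (h : j x ∈ Fermat.Agent.T1B.Local66.Objects.JextTop c0) :
    ∃ i, ∃ y : PicX c0 (O i), PicX.map c0 (O i) (L i) y = D.d i x :=
  Fields.exists_extension Cm hinjE (fun _ => ⊤)
    (Fermat.Agent.T1B.Local66.Objects.compatible_top c0) _ le_rfl x (exists_of_mem h)

/-- **`LocalGeom.ρ_const`, v2 binder.** -/
theorem rho_const_ext {R : Type uR} [AddCommGroup R] (ρ : G →+ R) (one : R)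
    (halg : ∀ i (y : PicX c0 (O i)) (x : G), PicX.map c0 (O i) (L i) y = D.d i x →
      ∃ s : ℤ, ρ x = s • one) :
    ∀ x : G, j x ∈ Fermat.Agent.T1B.Local66.Objects.JextTop c0 → ∃ s : ℤ, ρ x = s • one :=
  fun x hx => Fields.rho_const Cm hinjE (fun _ => ⊤)
    (Fermat.Agent.T1B.Local66.Objects.compatible_top c0) ρ one _ le_rfl halg x (exists_of_mem hx)

/-- **`LocalGeom.ρ_ker`, v2 binder.** -/
theorem rho_ker_ext {R : Type uR} [AddCommGroup R] (ρ : G →+ R)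
    (hmap : ∀ i (y : PicX c0 (O i)), y ∈ D.P00 i → Cm.toO i y ∈ P00 (Cm.Ehat i))
    (halg : ∀ i (y : PicX c0 (O i)) (x : G), PicX.map c0 (O i) (L i) y = D.d i x → ρ x = 0 →
      D.d i x ∈ J0L c0 (O i) (L i) (D.P00 i)) :
    ∀ x : G, j x ∈ Fermat.Agent.T1B.Local66.Objects.JextTop c0 → ρ x = 0 →
      j x ∈ J0top c0 P00 hPP :=
  fun x hx => Fields.rho_ker Cm hinjE P00 hPP ρ _ le_rfl hmap halg x (exists_of_mem hx)

/-- **`LocalGeom.ρ_const` and `LocalGeom.ρ_ker` at once, v2 binders**, from ONE level-wise statement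
in the shape of helper2's `R1Asm2.rho_of_level`. -/
theorem rho_fields_ext {R : Type uR} [AddCommGroup R] (ρ : G →+ R) (one : R) (n : ℕ)
    (hn : ∀ x : G, n • x = 0)
    (hmap : ∀ i (y : PicX c0 (O i)), y ∈ D.P00 i → Cm.toO i y ∈ P00 (Cm.Ehat i))
    (hlevel : ∀ i (y : PicX c0 (O i)) (x : G), PicX.map c0 (O i) (L i) y = D.d i x →
      D.d i x ^ n = 1 →
      (∃ s : ℤ, ρ x = s • one) ∧ (ρ x = 0 → D.d i x ∈ J0L c0 (O i) (L i) (D.P00 i))) :
    (∀ x : G, j x ∈ Fermat.Agent.T1B.Local66.Objects.JextTop c0 → ∃ s : ℤ, ρ x = s • one) ∧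
    (∀ x : G, j x ∈ Fermat.Agent.T1B.Local66.Objects.JextTop c0 → ρ x = 0 →
      j x ∈ J0top c0 P00 hPP) :=
  of_exists_form (Fields.rho_fields Cm hinjE P00 hPP ρ one n hn _ le_rfl hmap hlevel)

end Fermat.Agent.T1B.ADPe93.FieldsExt
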