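/-
Programme T1B (row 38 via S44), cell AD, brick `AD-MAIN-Pe` (helper93), part 7:
**REDUCTION ALONG `O_L → Ô`**: the base change `toOh c0 E : Pic X_{O_L} → Pic X_{Ô}` maps classes with
trivial special fibre to classes with trivial special fibre (`toOh_mem_J1Fam`), because `O_L → Ô` is a
local homomorphism (helper78, `AD78.Density.isUnit_of_psi`).  This is the `red`-half of the hypothesis
`hmap1` of `ADPe93.Fields.delta_ker`.
-/
import Mathlib
import Fermat.Agent.T1B.ADPe93.Inst
import Fermat.Agent.T1B.Local66.Objects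

set_option autoImplicit false
set_option linter.unusedSectionVars false
set_option linter.style.haveILetI false
set_option synthInstance.maxHeartbeats 400000
set_option maxHeartbeats 1000000

open Fermat.Agent.TW.B5.Iface Fermat.Agent.RED.Interface4 Fermat.Agent.T1.HubInst98
open Fermat.Agent.T1.IntSub47 Fermat.Agent.Jac Fermat.Agent.T1.RedIface75 Fermat.Agent.T1.Red11
open Fermat.Agent.T1B.Local66.LocalBase Fermat.Agent.T1B.Local66.Union
open Fermat.Agent.T1B.Bridge54.IpUnion Fermat.Agent.T1B.ADPe93.Inst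

noncomputable section

namespace Fermat.Agent.T1B.ADPe93.Red

variable {p : ℕ} [Fact p.Prime] {K : IntermediateField ℚ Qbar}
  {B0 B1 B01 : Type} [CommRing B0] [CommRing B1] [CommRing B01]
  [Algebra (Wb p K) B0] [Algebra (Wb p K) B1] [Algebra (Wb p K) B01] [Algebra B0 B01]
  [Algebra B1 B01] [IsScalarTower (Wb p K) B0 B01] [IsScalarTower (Wb p K) B1 B01]
  (c0 : TwoChart (Wb p K) B0 B1 B01)

/-- `O_L → Ô` is a local homomorphism. -/
theorem isLocalHom_toO (E : NLevel p K) : IsLocalHom (toO E.levL) := by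
  obtain ⟨L, finL, norL, leL, E', rfl⟩ := E
  refine ⟨fun r hr => ?_⟩
  apply Fermat.Agent.T1B.AD78.Density.isUnit_of_psi p L
  have h : Fermat.Agent.T1B.AD78.Density.psi p L r =
      toO (NLevel.levL (p := p) (K := K) ⟨L, finL, norL, leL, _, rfl⟩) r := Subtype.ext rfl
  rw [h]
  exact hr

/-- **Classes with trivial special fibre over `O_L` have trivial special fibre over `Ô`.** -/
theorem toOh_mem_J1Fam (E : NLevel p K) (y : PicOL c0 E)
    (hy : letI := algAK (padicPlace p) E.leL
      haveI := isDVR_OL E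
      red c0 (Wb p E.L) y = 1) :
    toOh c0 E y ∈ J1Fam c0 E := by
  letI := algAK (padicPlace p) E.leL
  letI := algWO E.lev
  letI := algWO E.levL
  haveI := tower_W_OL_Oh E
  haveI := isDVR_OL E
  haveI := isDVR_O E.E
  haveI : IsLocalHom (algebraMap (Wb p E.L) ↥(intSubring p E.E)) := isLocalHom_toO E
  have h1 : PicX.map c0 (Wb p E.L) (IsLocalRing.ResidueField (Wb p E.L)) y = 1 := hy
  show PicX.map c0 ↥(intSubring p E.E) (IsLocalRing.ResidueField ↥(intSubring p E.E))
    (PicX.map c0 (Wb p E.L) ↥(intSubring p E.E) y) = 1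
  rw [PicX.map_comp c0 (Wb p E.L) ↥(intSubring p E.E)
      (IsLocalRing.ResidueField ↥(intSubring p E.E)),
    ← PicX.map_comp c0 (Wb p E.L) (IsLocalRing.ResidueField (Wb p E.L))
      (IsLocalRing.ResidueField ↥(intSubring p E.E)), h1, map_one]

end Fermat.Agent.T1B.ADPe93.Red
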