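/-
Programme T1B (row 38 via S44), cell AD, brick `AD-MAIN-Pe` (helper93), part 8:
**THE CONCRETE `Completion` AND `hinjE` FOR SUBALGEBRA CHARTS** `B0 B1 : Subalgebra (Wb p K) D`,
`B01 = ↥(B0 ⊔ B1)` (instances `Coh60.algebra0/1`), `D` any field over `K` with an expansion
`eD : D →+* K((q))`, `eD c = C c` — the shape of the concrete hub `Hub9.c0S H`
(`D := FS p M' K`, `eD := Hub9.expAt (M' * p) K`, `heD := Hub9.expAt_const (M' * p) K`).

No expansion/flatness hypotheses remain (helper69's `AD69.Concrete.eSub`, `flat_sub`):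
* `completionSub eD heD B0 B1 c0 L₀ D j hj : Completion D j` over the levels above `L₀`;
* `hinjESub eD heD B0 B1 c0 hH0 : ∀ E, Function.Injective (bcE c0 E)`.
-/
import Mathlib
import Fermat.Agent.T1B.ADPe93.Final
import Fermat.Agent.T1B.AD69.GlueSub
import Fermat.Agent.T1B.AD69.HinjE

set_option autoImplicit false
set_option linter.unusedSectionVars false
set_option linter.style.haveILetI false
set_option synthInstance.maxHeartbeats 400000
set_option maxHeartbeats 1000000

open Fermat.Agent.TW.B5.Iface Fermat.Agent.RED.Interface4 Fermat.Agent.T1.HubInst98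
open Fermat.Agent.T1.IntSub47 Fermat.Agent.Jac Fermat.Agent.T1.RedIface75
open Fermat.Agent.T1B.Local66.LocalBase Fermat.Agent.T1B.Local66.Union
open Fermat.Agent.T1B.AD74.J0a Fermat.Agent.T1B.ADPe93.Inst Fermat.Agent.T1B.AD69.Concrete
open Fermat.Agent.T1.Coh60 Fermat.Agent.T1.ModelCoh30
open Fermat.Agent.Jac.BaseChange75
open scoped Fermat.Agent.Jac.BaseChange75

noncomputable section

namespace Fermat.Agent.T1B.ADPe93.Sub

attribute [local instance] algebra0 algebra1 isScalarTower0 isScalarTower1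

variable {p : ℕ} [Fact p.Prime] {K : IntermediateField ℚ Qbar} [FiniteDimensional ℚ K]
  {D : Type} [Field D] [Algebra ↥K D] [Algebra (Wb p K) D] [IsScalarTower (Wb p K) ↥K D]
  (eD : D →+* LaurentSeries ↥K) (heD : ∀ c : ↥K, eD (algebraMap ↥K D c) = HahnSeries.C c)
  (B0 B1 : Subalgebra (Wb p K) D) (c0 : TwoChart (Wb p K) ↥B0 ↥B1 ↥(B0 ⊔ B1))
  (L₀ : IntermediateField ℚ Qbar) [FiniteDimensional ℚ L₀]
  {G : Type} [AddCommGroup G]

include heD in
/-- **The concrete `Completion` for subalgebra charts**, over the levels above `L₀`. -/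
def completionSub :
    letI := dvrFam (LevelAbove.lev (p := p) (K := K) (L₀ := L₀))
    letI := algWOFam (LevelAbove.lev (p := p) (K := K) (L₀ := L₀))
    letI := algWLFam (LevelAbove.lev (p := p) (K := K) (L₀ := L₀))
    haveI := towerFam (LevelAbove.lev (p := p) (K := K) (L₀ := L₀))
    ∀ (Dl : Levels (G := G) c0 (OFam (LevelAbove.lev (p := p) (K := K) (L₀ := L₀)))
        (LFam (LevelAbove.lev (p := p) (K := K) (L₀ := L₀)))) (j : G →+ Atop p K c0)
      (_ : ∀ i x, Additive.ofMul
        (bcE c0 (LevelAbove.lev i) (toEh c0 (LevelAbove.lev i) (Dl.d i x))) = j x),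
      Completion Dl j :=
  haveI := flat_sub B0
  haveI := flat_sub B1
  haveI := flat_sub (B0 ⊔ B1)
  Final.completionAbove c0 (eSub eD B0) (eSub_const eD heD B0) (eSub eD B1)
    (eSub_const eD heD B1) (eSub eD (B0 ⊔ B1)) (eSub_const eD heD (B0 ⊔ B1)) (fun _ => rfl)
    (fun _ => rfl) L₀ (eSub_injective eD B0) (eSub_injective eD B1) (eSub_injective eD (B0 ⊔ B1))

include heD in
/-- **EXT-INJ-FIELD for subalgebra charts**: `Pic X_{E_L} → Pic X_{ℚ̄_p}` is injective. -/
theorem hinjESub
    (hH0 : letI := algWKbar p K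
      Fermat.Agent.T1.Red68.H0Const (c0.baseChange (Kbar p)))
    (E : NLevel p K) : Function.Injective (bcE c0 E) :=
  haveI := flat_sub B0
  hinjE c0 (eSub eD B0) (eSub_const eD heD B0) (eSub_injective eD B0) hH0 E

end Fermat.Agent.T1B.ADPe93.Sub
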